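import Mathlib
import Fermat.Agent.S18x.Spec.H26_Spec
import Fermat.Agent.S18x.Dict.H17_Const
import Fermat.Agent.S34x.Loc.H26_SpecPow

/-!
# S34 (W10), assembly (helper25): the abstract devissage step `p ^ k → p ^ (k + 1)` with the
root taken in the BIG field `E`

Setting of `Fermat.Agent.S18x.Spec.H26.h26_spec` (`V ⊆ F` any integrally closed subring, in the
application `V = V∞ ⊓ V0`), together with the fraction field `K` of `O`, algebraically closed in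
`F` (`hK`), and a field `E ⊇ F` containing the roots of all polynomials over `K` (`hE`), exactly
as in `h26_kum_abs`.

* `h25_prime_E` : the Kummer theorem at the prime `p` with the root in `E`
  (`h26_spec` + `h17_hconst`, by contradiction);
* `h25_ss_step` : if `w ≡ 1 mod π₀ V` satisfies (LOC) for the exponent `p ^ (k + 1)` at every
  closed point of the special fibre of the two charts and `w = g ^ (p ^ k)` with `g ∈ F`, then
  `w` is a `p ^ (k + 1)`-th power in `E`.  The hypothesis `hunit` (at the exponent `p ^ k`, at ONE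
  crossing point `𝔫₀` of the first chart) normalises `g` by a `p ^ k`-th root of unity of `O`.

The hypothesis `hconstAll` of `h26_spec_pow` is NOT satisfiable over a number field
(`g := π₀`, or a unit `u ≡ 1 mod π₀` which is not a `p`-th power); the devissage must therefore be
run at the level of `E`, the field of definition growing at every step.  This file is the
abstract step over ONE field.
-/

set_option autoImplicit false
set_option linter.style.haveILetI false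
set_option linter.unusedSectionVars false

open Polynomial

namespace Fermat.Agent.S34x.Asm.H25

open Fermat.Agent.S18x.Spec.H26 Fermat.Agent.S34x.Loc.H26

variable {O K F E : Type*} [CommRing O] [IsDomain O] [IsIntegrallyClosed O] [IsNoetherianRing O]
  [Field K] [Field F] [CharZero F] [Algebra O K] [IsFractionRing O K] [Algebra K F]
  [Algebra O F] [IsScalarTower O K F] [Field E] [Algebra F E]

/-- **The Kummer theorem at a prime `p`, root in `E`**: `h26_spec` with `hconst` discharged by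
`h17_hconst` (by contradiction), for an arbitrary integrally closed subring `V`. -/
theorem h25_prime_E (π₀ : O) (hπ₀ : Prime π₀) (j j' : F) (hjj' : j * j' = 1)
    (hj : Transcendental O j) (hfinF : H26FinOver O j)
    (V : Subring F) (hVic : ∀ y : F, IsIntegral V y → y ∈ V)
    (hOV : ∀ c : O, algebraMap O F c ∈ V) (hjV : j ∈ V) (hj'V : j' ∈ V)
    (hπV : ∀ v ∈ V, algebraMap O F π₀ * v ≠ 1)
    (hsat₁ : ∀ v ∈ V, algebraMap O F π₀ * v ∈ chart O j → v ∈ chart O j)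
    (hsat₂ : ∀ v ∈ V, algebraMap O F π₀ * v ∈ chart O j' → v ∈ chart O j')
    (hsat₁₂ : ∀ v ∈ V, algebraMap O F π₀ * v ∈ chart₁₂ O j j' → v ∈ chart₁₂ O j j')
    (p : ℕ) (hp : p.Prime) (μ₀ : O) (hμ : μ₀ * (p : O) = 1)
    (hK : ∀ y : F, IsAlgebraic K y → y ∈ (algebraMap K F).range)
    (hE : ∀ P : K[X], P.Monic → Irreducible P →
      ∃ r : E, aeval r (P.map (algebraMap K F)) = 0)
    (f v : F) (hvV : v ∈ V) (hf : f - 1 = algebraMap O F π₀ * v)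
    (hLOC₁ : ∀ 𝔫 : Ideal (chart O j).toSubring, 𝔫.IsMaximal →
      (⟨algebraMap O F π₀, (chart O j).algebraMap_mem π₀⟩ : (chart O j).toSubring) ∈ 𝔫 →
      ∃ (h : F) (s : (chart O j).toSubring), s ∉ 𝔫 ∧
        (∃ c ∈ V, h - 1 = algebraMap O F π₀ * c) ∧
        (s : F) * f * h ^ p ∈ (chart O j).toSubring)
    (hLOC₂ : ∀ 𝔫 : Ideal (chart O j').toSubring, 𝔫.IsMaximal →
      (⟨algebraMap O F π₀, (chart O j').algebraMap_mem π₀⟩ : (chart O j').toSubring) ∈ 𝔫 →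
      ∃ (h : F) (s : (chart O j').toSubring), s ∉ 𝔫 ∧
        (∃ c ∈ V, h - 1 = algebraMap O F π₀ * c) ∧
        (s : F) * f * h ^ p ∈ (chart O j').toSubring) :
    ∃ y : E, y ^ p = algebraMap F E f := by
  by_contra hfE
  have hnot : ∀ y : F, y ^ p ≠ f := fun y hy =>
    hfE ⟨algebraMap F E y, by rw [← map_pow, hy]⟩
  haveI : Fact (Irreducible (X ^ p - C f : F[X])) := ⟨h26_kummer_irreducible hp hnot⟩
  have hconst : ∀ y : AdjoinRoot (X ^ p - C f : F[X]), IsIntegral O y →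
      ∃ c : O, algebraMap O (AdjoinRoot (X ^ p - C f : F[X])) c = y := fun y hy =>
    Fermat.Agent.S18x.Dict.H17.h17_hconst (K := K) (F := F) (E := E) hK hE p hp f hfE
      (AdjoinRoot.root (X ^ p - C f : F[X])) (h26_kummer_root_pow p f)
      (h26_kummer_finrank hp.ne_zero f) y hy
  obtain ⟨g, hg⟩ := h26_spec π₀ hπ₀ j j' hjj' hj hfinF V hVic hOV hjV hj'V hπV hsat₁ hsat₂
    hsat₁₂ p hp μ₀ hμ f v hvV hf hLOC₁ hLOC₂ hconst
  exact hnot g hg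

/-- **The devissage step, root in `E`.** -/
theorem h25_ss_step (π₀ : O) (hπ₀ : Prime π₀) (j j' : F) (hjj' : j * j' = 1)
    (hj : Transcendental O j) (hfinF : H26FinOver O j)
    (V : Subring F) (hVic : ∀ y : F, IsIntegral V y → y ∈ V)
    (hOV : ∀ c : O, algebraMap O F c ∈ V) (hjV : j ∈ V) (hj'V : j' ∈ V)
    (hπV : ∀ v ∈ V, algebraMap O F π₀ * v ≠ 1)
    (hsat₁ : ∀ v ∈ V, algebraMap O F π₀ * v ∈ chart O j → v ∈ chart O j)
    (hsat₂ : ∀ v ∈ V, algebraMap O F π₀ * v ∈ chart O j' → v ∈ chart O j')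
    (hsat₁₂ : ∀ v ∈ V, algebraMap O F π₀ * v ∈ chart₁₂ O j j' → v ∈ chart₁₂ O j j')
    (p : ℕ) (hp : p.Prime) (μ₀ : O) (hμ : μ₀ * (p : O) = 1)
    (hK : ∀ y : F, IsAlgebraic K y → y ∈ (algebraMap K F).range)
    (hE : ∀ P : K[X], P.Monic → Irreducible P →
      ∃ r : E, aeval r (P.map (algebraMap K F)) = 0)
    (k : ℕ)
    (𝔫₀ : Ideal (chart O j).toSubring) (h𝔫₀ : 𝔫₀.IsMaximal)
    (hπ𝔫₀ : (⟨algebraMap O F π₀, (chart O j).algebraMap_mem π₀⟩ : (chart O j).toSubring) ∈ 𝔫₀)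
    (hunit : ∀ v ∈ V,
      (∃ s : (chart O j).toSubring, s ∉ 𝔫₀ ∧ (s : F) * v ∈ (chart O j).toSubring) →
      (∃ c ∈ V, v ^ (p ^ k) - 1 = algebraMap O F π₀ * c) →
      ∃ ζ : O, ζ ^ (p ^ k) = 1 ∧ ∃ c ∈ V, v - algebraMap O F ζ = algebraMap O F π₀ * c)
    (w : F) (hw : ∃ c ∈ V, w - 1 = algebraMap O F π₀ * c)
    (hLOC₁ : ∀ 𝔫 : Ideal (chart O j).toSubring, 𝔫.IsMaximal →
      (⟨algebraMap O F π₀, (chart O j).algebraMap_mem π₀⟩ : (chart O j).toSubring) ∈ 𝔫 →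
      LocAt (chart O j).toSubring V (algebraMap O F π₀) (p ^ (k + 1)) 𝔫 w)
    (hLOC₂ : ∀ 𝔫 : Ideal (chart O j').toSubring, 𝔫.IsMaximal →
      (⟨algebraMap O F π₀, (chart O j').algebraMap_mem π₀⟩ : (chart O j').toSubring) ∈ 𝔫 →
      LocAt (chart O j').toSubring V (algebraMap O F π₀) (p ^ (k + 1)) 𝔫 w)
    (g : F) (hg : g ^ (p ^ k) = w) :
    ∃ y : E, y ^ (p ^ (k + 1)) = algebraMap F E w := by
  have hπVmem : algebraMap O F π₀ ∈ V := hOV π₀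
  have hpk : 0 < p ^ k := pow_pos hp.pos k
  obtain ⟨cw, hcw, hwc⟩ := hw
  have hwV : w ∈ V := by
    have e : w = 1 + algebraMap O F π₀ * cw := by rw [← hwc]; ring
    rw [e]
    exact V.add_mem V.one_mem (V.mul_mem hπVmem hcw)
  have hgV : g ∈ V := by
    apply hVic
    refine ⟨X ^ (p ^ k) - C ⟨w, hwV⟩, monic_X_pow_sub_C _ hpk.ne', ?_⟩
    simp only [eval₂_sub, eval₂_X_pow, eval₂_C]
    rw [hg]
    exact sub_self _
  -- (LOC) at the exponent `p` for `g`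
  have hG₁ : ∀ 𝔫 : Ideal (chart O j).toSubring, 𝔫.IsMaximal →
      (⟨algebraMap O F π₀, (chart O j).algebraMap_mem π₀⟩ : (chart O j).toSubring) ∈ 𝔫 →
      ∃ (h : F) (s : (chart O j).toSubring), s ∉ 𝔫 ∧
        (∃ c ∈ V, h - 1 = algebraMap O F π₀ * c) ∧
        (s : F) * g * h ^ p ∈ (chart O j).toSubring := by
    intro 𝔫 h𝔫 hπ𝔫
    refine h26_locAt_root (O := O) j V _ p (p ^ k) hpk 𝔫 ?_
    rw [hg, ← pow_succ]
    exact hLOC₁ 𝔫 h𝔫 hπ𝔫
  have hG₂ : ∀ 𝔫 : Ideal (chart O j').toSubring, 𝔫.IsMaximal →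
      (⟨algebraMap O F π₀, (chart O j').algebraMap_mem π₀⟩ : (chart O j').toSubring) ∈ 𝔫 →
      ∃ (h : F) (s : (chart O j').toSubring), s ∉ 𝔫 ∧
        (∃ c ∈ V, h - 1 = algebraMap O F π₀ * c) ∧
        (s : F) * g * h ^ p ∈ (chart O j').toSubring := by
    intro 𝔫 h𝔫 hπ𝔫
    refine h26_locAt_root (O := O) j' V _ p (p ^ k) hpk 𝔫 ?_
    rw [hg, ← pow_succ]
    exact hLOC₂ 𝔫 h𝔫 hπ𝔫
  -- the residue constant of `g` at the crossing point
  obtain ⟨h, s, hs, ⟨c, hc, hch⟩, hmem⟩ := hG₁ 𝔫₀ h𝔫₀ hπ𝔫₀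
  have hhV : h ∈ V := by
    have e : h = 1 + algebraMap O F π₀ * c := by rw [← hch]; ring
    rw [e]
    exact V.add_mem V.one_mem (V.mul_mem hπVmem hc)
  obtain ⟨c', hc', hch'⟩ := h26_pow_sub_one V _ hπVmem ⟨c, hc, hch⟩ p
  obtain ⟨c'', hc'', hch''⟩ := h26_pow_sub_one V _ hπVmem ⟨c, hc, hch⟩ (p * p ^ k)
  have hvV : g * h ^ p ∈ V := V.mul_mem hgV (V.pow_mem hhV p)
  have hreg : ∃ s : (chart O j).toSubring, s ∉ 𝔫₀ ∧
      (s : F) * (g * h ^ p) ∈ (chart O j).toSubring := by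
    refine ⟨s, hs, ?_⟩
    have e : (s : F) * (g * h ^ p) = (s : F) * g * h ^ p := by ring
    rw [e]
    exact hmem
  have hpow : ∃ d ∈ V, (g * h ^ p) ^ (p ^ k) - 1 = algebraMap O F π₀ * d := by
    refine ⟨cw * h ^ (p * p ^ k) + c'', V.add_mem (V.mul_mem hcw (V.pow_mem hhV _)) hc'', ?_⟩
    have e : (g * h ^ p) ^ (p ^ k) - 1 = (w - 1) * h ^ (p * p ^ k) + (h ^ (p * p ^ k) - 1) := by
      rw [mul_pow, hg, ← pow_mul]
      ring
    rw [e, hwc, hch'']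
    ring
  obtain ⟨ζ, hζ, c₂, hc₂, hζc⟩ := hunit (g * h ^ p) hvV hreg hpow
  -- `ζ` is a unit with inverse `ζ' = ζ ^ (p ^ k - 1)`
  set ζ' : O := ζ ^ (p ^ k - 1) with hζ'
  have hζζ' : ζ * ζ' = 1 := by
    rw [hζ', ← pow_succ', Nat.sub_add_cancel hpk, hζ]
  have hζ'pow : ζ' ^ (p ^ k) = 1 := by
    rw [hζ', ← pow_mul, mul_comm, pow_mul, hζ, one_pow]
  have hζζ'F : algebraMap O F ζ * algebraMap O F ζ' = 1 := by
    rw [← map_mul, hζζ', map_one]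
  -- the normalised root `g ζ'`
  have hgn1 : g * algebraMap O F ζ' - 1 =
      algebraMap O F π₀ * (algebraMap O F ζ' * (c₂ - g * c')) := by
    have e : g * algebraMap O F ζ' - 1 =
        algebraMap O F ζ' * ((g * h ^ p - algebraMap O F ζ) - g * (h ^ p - 1)) := by
      linear_combination hζζ'F
    rw [e, hζc, hch']
    ring
  have hvgn : algebraMap O F ζ' * (c₂ - g * c') ∈ V :=
    V.mul_mem (hOV ζ') (V.sub_mem hc₂ (V.mul_mem hgV hc'))
  have hL₁ : ∀ 𝔫 : Ideal (chart O j).toSubring, 𝔫.IsMaximal →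
      (⟨algebraMap O F π₀, (chart O j).algebraMap_mem π₀⟩ : (chart O j).toSubring) ∈ 𝔫 →
      ∃ (h : F) (s : (chart O j).toSubring), s ∉ 𝔫 ∧
        (∃ c ∈ V, h - 1 = algebraMap O F π₀ * c) ∧
        (s : F) * (g * algebraMap O F ζ') * h ^ p ∈ (chart O j).toSubring := by
    intro 𝔫 h𝔫 hπ𝔫
    obtain ⟨h₁, s₁, hs₁, hh₁, hmem₁⟩ := hG₁ 𝔫 h𝔫 hπ𝔫
    refine ⟨h₁, s₁, hs₁, hh₁, ?_⟩
    have e : (s₁ : F) * (g * algebraMap O F ζ') * h₁ ^ p =
        algebraMap O F ζ' * ((s₁ : F) * g * h₁ ^ p) := by ring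
    rw [e]
    exact Subring.mul_mem _ ((chart O j).algebraMap_mem ζ') hmem₁
  have hL₂ : ∀ 𝔫 : Ideal (chart O j').toSubring, 𝔫.IsMaximal →
      (⟨algebraMap O F π₀, (chart O j').algebraMap_mem π₀⟩ : (chart O j').toSubring) ∈ 𝔫 →
      ∃ (h : F) (s : (chart O j').toSubring), s ∉ 𝔫 ∧
        (∃ c ∈ V, h - 1 = algebraMap O F π₀ * c) ∧
        (s : F) * (g * algebraMap O F ζ') * h ^ p ∈ (chart O j').toSubring := by
    intro 𝔫 h𝔫 hπ𝔫
    obtain ⟨h₁, s₁, hs₁, hh₁, hmem₁⟩ := hG₂ 𝔫 h𝔫 hπ𝔫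
    refine ⟨h₁, s₁, hs₁, hh₁, ?_⟩
    have e : (s₁ : F) * (g * algebraMap O F ζ') * h₁ ^ p =
        algebraMap O F ζ' * ((s₁ : F) * g * h₁ ^ p) := by ring
    rw [e]
    exact Subring.mul_mem _ ((chart O j').algebraMap_mem ζ') hmem₁
  obtain ⟨y, hy⟩ := h25_prime_E (K := K) (E := E) π₀ hπ₀ j j' hjj' hj hfinF V hVic hOV hjV hj'V
    hπV hsat₁ hsat₂ hsat₁₂ p hp μ₀ hμ hK hE (g * algebraMap O F ζ') _ hvgn hgn1 hL₁ hL₂
  refine ⟨y, ?_⟩
  have h1 : (g * algebraMap O F ζ') ^ (p ^ k) = w := by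
    rw [mul_pow, hg, ← map_pow, hζ'pow, map_one, mul_one]
  rw [pow_succ, mul_comm, pow_mul, hy, ← map_pow, h1]

/-- (LOC) for the exponent `M * M'` implies (LOC) for the exponent `M`. -/
theorem h25_locAt_of_mul {F' : Type*} [Field F'] (B V : Subring F') (π : F') (hπV : π ∈ V)
    (M M' : ℕ) (𝔫 : Ideal B) (w : F') (h : LocAt B V π (M * M') 𝔫 w) : LocAt B V π M 𝔫 w := by
  obtain ⟨h₁, s, hs, hh, hmem⟩ := h
  refine ⟨h₁ ^ M', s, hs, h26_pow_sub_one V π hπV hh M', ?_⟩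
  rw [← pow_mul, mul_comm M' M]
  exact hmem

/-- **The devissage step for a second difference, root in `E`**: `h25_ss_step` fed with
`h26_nodal_loc`.  `f ≠ 0` satisfies (LP) for the exponent `p ^ n` at every closed point of the
special fibre of the two charts, `k < n`, and `δ² f = g ^ (p ^ k)` with `g ∈ F`; then `δ² f` is a
`p ^ (k + 1)`-th power in `E`. -/
theorem h25_ss_step_tau (π₀ : O) (hπ₀ : Prime π₀) (j j' : F) (hjj' : j * j' = 1)
    (hj : Transcendental O j) (hfinF : H26FinOver O j)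
    (V : Subring F) (hVic : ∀ y : F, IsIntegral V y → y ∈ V)
    (hOV : ∀ c : O, algebraMap O F c ∈ V) (hjV : j ∈ V) (hj'V : j' ∈ V)
    (hπV : ∀ v ∈ V, algebraMap O F π₀ * v ≠ 1)
    (hsat₁ : ∀ v ∈ V, algebraMap O F π₀ * v ∈ chart O j → v ∈ chart O j)
    (hsat₂ : ∀ v ∈ V, algebraMap O F π₀ * v ∈ chart O j' → v ∈ chart O j')
    (hsat₁₂ : ∀ v ∈ V, algebraMap O F π₀ * v ∈ chart₁₂ O j j' → v ∈ chart₁₂ O j j')
    (p : ℕ) (hp : p.Prime) (μ₀ : O) (hμ : μ₀ * (p : O) = 1)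
    (hK : ∀ y : F, IsAlgebraic K y → y ∈ (algebraMap K F).range)
    (hE : ∀ P : K[X], P.Monic → Irreducible P →
      ∃ r : E, aeval r (P.map (algebraMap K F)) = 0)
    (n k : ℕ) (hkn : k < n)
    (𝔫₀ : Ideal (chart O j).toSubring) (h𝔫₀ : 𝔫₀.IsMaximal)
    (hπ𝔫₀ : (⟨algebraMap O F π₀, (chart O j).algebraMap_mem π₀⟩ : (chart O j).toSubring) ∈ 𝔫₀)
    (hunit : ∀ v ∈ V,
      (∃ s : (chart O j).toSubring, s ∉ 𝔫₀ ∧ (s : F) * v ∈ (chart O j).toSubring) →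
      (∃ c ∈ V, v ^ (p ^ k) - 1 = algebraMap O F π₀ * c) →
      ∃ ζ : O, ζ ^ (p ^ k) = 1 ∧ ∃ c ∈ V, v - algebraMap O F ζ = algebraMap O F π₀ * c)
    (τ : F ≃+* F) (hτ₁ : ∀ b ∈ chart O j, τ b ∈ chart O j)
    (hτ₂ : ∀ b ∈ chart O j', τ b ∈ chart O j')
    (ε ε' : O) (hεε' : ε * ε' = 1)
    (hε : τ (algebraMap O F π₀) = algebraMap O F ε * algebraMap O F π₀)
    (htriv : ∀ v ∈ V, ∃ c ∈ V, τ v - v = algebraMap O F π₀ * c)
    (hU : ∀ g : F, g ≠ 0 → τ g / g ∈ V ∧ g / τ g ∈ V)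
    (f : F) (hf0 : f ≠ 0)
    (hLP₁ : ∀ 𝔫 : Ideal (chart O j).toSubring, 𝔫.IsMaximal →
      (⟨algebraMap O F π₀, (chart O j).algebraMap_mem π₀⟩ : (chart O j).toSubring) ∈ 𝔫 →
      ∃ d w₀ : F, d ≠ 0 ∧ w₀ ≠ 0 ∧ f = d ^ (p ^ n) * w₀ ∧
        InLoc (chart O j).toSubring (algebraMap O F π₀) 𝔫 w₀ ∧
        InLoc (chart O j).toSubring (algebraMap O F π₀) 𝔫 w₀⁻¹)
    (hLP₂ : ∀ 𝔫 : Ideal (chart O j').toSubring, 𝔫.IsMaximal →
      (⟨algebraMap O F π₀, (chart O j').algebraMap_mem π₀⟩ : (chart O j').toSubring) ∈ 𝔫 →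
      ∃ d w₀ : F, d ≠ 0 ∧ w₀ ≠ 0 ∧ f = d ^ (p ^ n) * w₀ ∧
        InLoc (chart O j').toSubring (algebraMap O F π₀) 𝔫 w₀ ∧
        InLoc (chart O j').toSubring (algebraMap O F π₀) 𝔫 w₀⁻¹)
    (g : F) (hg : g ^ (p ^ k) = secondDiff τ f) :
    ∃ y : E, y ^ (p ^ (k + 1)) = algebraMap F E (secondDiff τ f) := by
  have hBV₁ : (chart O j).toSubring ≤ V := by
    intro y hy
    refine h26_closure_le (O := O) {j} V hVic hOV ?_ hy
    intro s hs
    rw [Set.mem_singleton_iff] at hs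
    rw [hs]
    exact hjV
  have hBV₂ : (chart O j').toSubring ≤ V := by
    intro y hy
    refine h26_closure_le (O := O) {j'} V hVic hOV ?_ hy
    intro s hs
    rw [Set.mem_singleton_iff] at hs
    rw [hs]
    exact hj'V
  have hεε'F : algebraMap O F ε * algebraMap O F ε' = 1 := by
    rw [← map_mul, hεε', map_one]
  have hpn : p ^ n = p ^ (k + 1) * p ^ (n - (k + 1)) := by
    rw [← pow_add]
    congr 1
    omega
  have hL₁ : ∀ 𝔫 : Ideal (chart O j).toSubring, 𝔫.IsMaximal →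
      (⟨algebraMap O F π₀, (chart O j).algebraMap_mem π₀⟩ : (chart O j).toSubring) ∈ 𝔫 →
      LocAt (chart O j).toSubring V (algebraMap O F π₀) (p ^ (k + 1)) 𝔫 (secondDiff τ f) := by
    intro 𝔫 h𝔫 hπ𝔫
    obtain ⟨d, w₀, hd, hw₀, hf, hL, hL'⟩ := hLP₁ 𝔫 h𝔫 hπ𝔫
    haveI : 𝔫.IsPrime := h𝔫.isPrime
    refine h25_locAt_of_mul _ V _ (hOV π₀) (p ^ (k + 1)) (p ^ (n - (k + 1))) 𝔫 _ ?_
    rw [← hpn]
    exact h26_nodal_loc (chart O j).toSubring V hBV₁ (algebraMap O F π₀)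
      ((chart O j).algebraMap_mem π₀) hsat₁ τ hτ₁ (algebraMap O F ε) (algebraMap O F ε')
      ((chart O j).algebraMap_mem ε) ((chart O j).algebraMap_mem ε') hεε'F hε htriv hU (p ^ n) 𝔫
      hπ𝔫 f d w₀ hd hw₀ hf hL hL'
  have hL₂ : ∀ 𝔫 : Ideal (chart O j').toSubring, 𝔫.IsMaximal →
      (⟨algebraMap O F π₀, (chart O j').algebraMap_mem π₀⟩ : (chart O j').toSubring) ∈ 𝔫 →
      LocAt (chart O j').toSubring V (algebraMap O F π₀) (p ^ (k + 1)) 𝔫 (secondDiff τ f) := by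
    intro 𝔫 h𝔫 hπ𝔫
    obtain ⟨d, w₀, hd, hw₀, hf, hL, hL'⟩ := hLP₂ 𝔫 h𝔫 hπ𝔫
    haveI : 𝔫.IsPrime := h𝔫.isPrime
    refine h25_locAt_of_mul _ V _ (hOV π₀) (p ^ (k + 1)) (p ^ (n - (k + 1))) 𝔫 _ ?_
    rw [← hpn]
    exact h26_nodal_loc (chart O j').toSubring V hBV₂ (algebraMap O F π₀)
      ((chart O j').algebraMap_mem π₀) hsat₂ τ hτ₂ (algebraMap O F ε) (algebraMap O F ε')
      ((chart O j').algebraMap_mem ε) ((chart O j').algebraMap_mem ε') hεε'F hε htriv hU (p ^ n) 𝔫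
      hπ𝔫 f d w₀ hd hw₀ hf hL hL'
  exact h25_ss_step (K := K) (E := E) π₀ hπ₀ j j' hjj' hj hfinF V hVic hOV hjV hj'V hπV hsat₁
    hsat₂ hsat₁₂ p hp μ₀ hμ hK hE k 𝔫₀ h𝔫₀ hπ𝔫₀ hunit (secondDiff τ f)
    (h26_secondDiff_sub_one V (algebraMap O F π₀) τ htriv hU hf0) hL₁ hL₂ g hg

end Fermat.Agent.S34x.Asm.H25
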