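import Mathlib
import Fermat.Agent.S34x.Desc.H12_K1
import Fermat.Agent.S34x.Cross.H18_Base
import Fermat.Agent.S34x.Loc.H26_LPInst
import Fermat.Agent.S34x.Val.H6_Tau
import Fermat.Agent.S34x.Val.H2_Ideals
import Fermat.Agent.S34x.Sat.H21_SatCoord
import Fermat.Agent.S34x.Desc.H16_FinalPlug
import Fermat.Agent.S18x.Dict.H23_Dvr

/-!
# S34 (W10), the CAPSTONE (helper12): the `K`-level one-step statement from the geometric chain

`M` a level, `q ∤ M` a prime, `N = M q`, `p ≠ q` a prime, `p₀ ∈ {2, 3}`, `p₀ ≠ q`, `p₀ ∣ M`,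
`B` a valuation subring of `ℚ̄` over `q`, `τ` in the inertia group of `B`.

* `h12_pack_step`  : the one-step statement over ONE number field `K` (normal over `ℚ`,
  `O = B ∩ K` a discrete valuation ring with uniformiser `π₀`), for a base coordinate
  `x = coordM K N x₀` of level `M`: helper18's `h18_base_step` fed with
  - the `V`-package of stage (A) (helper6: `V = h6V = W[j_q]`, `hVic`, `hOV`, `hxV`, `hx'V`,
    `hπV`, the two maximal ideals of `V` over `π₀` and `𝔪₁ ∩ 𝔪₂ = π₀ V`, (TRIV), (U)),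
  - (LP) on the two charts (helper26: `h26_LP_first`, `h26_LP_second`),
  - the arithmetic constants `μ₀ = p⁻¹`, `ε = τ π₀ / π₀` (helper23, helper12);
  what is LEFT as hypotheses: `hsat` (stage (B), discharged in `h12_pack_two/three`),
  `hgen : H6Gen` (stage (A), (GEN)), `hcomp₁`, `hcomp₂ : H7Comp` on the two charts (stage (C)).
* `H12GenAt`, `H12CompAt` : the two NAMED HYPOTHESES, in the spelling of their owners' exports;
* `h12_pack_geom` : `H12GenAt → H12CompAt → H12StepPack (M * q) p B τ`;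
* `h12_stKumGeom` : `(∀ …, H12GenAt) → (∀ …, H12CompAt) → Desc.H16.StKumGeom`.
-/

set_option autoImplicit false
set_option linter.unusedSectionVars false
set_option linter.unusedVariables false
set_option linter.style.haveILetI false
set_option synthInstance.maxHeartbeats 400000
set_option maxHeartbeats 1000000

noncomputable section

namespace Fermat.Agent.S34x.Asm.H12

open AlgebraicCurve ModularCurve IntermediateField Polynomial
open Fermat.Agent.S18x.Dict.H20 Fermat.Agent.S18x.Dict.H22 Fermat.Agent.S18x.Dict.H23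
open Fermat.Agent.S18x.Spec.H26 Fermat.Agent.S18x.IG.H29 Fermat.Agent.S18x.Qepo
open Fermat.Agent.S34x.Loc.H26 Fermat.Agent.S34x.Comp.H7
open Fermat.Agent.S34x.Desc.H12 Fermat.Agent.S34x.Val.H6 Fermat.Agent.S34x.Val.H2

local notation "Lbar" => AlgebraicClosure ℚ

section Step

variable (A₀ : ValuationSubring Lbar) (M N : ℕ) [NeZero M] [NeZero N] (hMN : M ∣ N)
  (q : ℕ) [NeZero q] (hq : q.Prime) (hqN : q ∣ N)
  (K : IntermediateField ℚ Lbar) [Normal ℚ ↥K]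
  [IsDiscreteValuationRing (A₀.comap (algebraMap ↥K Lbar))]
  [Algebra (A₀.comap (algebraMap ↥K Lbar)) (FM ↥K M)]
  [IsScalarTower (A₀.comap (algebraMap ↥K Lbar)) ↥K (FM ↥K M)]
  [Algebra (A₀.comap (algebraMap ↥K Lbar)) (FM ↥K N)]
  [IsScalarTower (A₀.comap (algebraMap ↥K Lbar)) ↥K (FM ↥K N)]

include hq in
/-- **The one-step statement over one number field**, for a base coordinate of level `M`. -/
theorem h12_pack_step (hA₀ : A₀.LiesOverPrime q)
    {τ : Lbar ≃ₐ[ℚ] Lbar} (hτ : τ ∈ A₀.inertiaSubgroupIn ℚ)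
    (hgen : H6Gen (K := ↥K) M N q)
    (x₀ : LaurentSeries ℤ) (hord : x₀.order = -1) (hlead : x₀.coeff (-1) = 1)
    (hmemM : coeffMap (Int.castRingHom ↥K) x₀ ∈ modularFunctionFieldFullC ↥K M)
    (hmemN : coeffMap (Int.castRingHom ↥K) x₀ ∈ modularFunctionFieldFullC ↥K N)
    (π₀ : A₀.comap (algebraMap ↥K Lbar)) (hπ₀ : Irreducible π₀)
    (hsat : (∀ v ∈ h6V (A₀.comap (algebraMap ↥K Lbar)) M N hMN q hqN,
        algebraMap (A₀.comap (algebraMap ↥K Lbar)) (FM ↥K N) π₀ * v ∈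
          chart (A₀.comap (algebraMap ↥K Lbar)) (coordM ↥K N x₀ hmemN) →
        v ∈ chart (A₀.comap (algebraMap ↥K Lbar)) (coordM ↥K N x₀ hmemN)) ∧
      (∀ v ∈ h6V (A₀.comap (algebraMap ↥K Lbar)) M N hMN q hqN,
        algebraMap (A₀.comap (algebraMap ↥K Lbar)) (FM ↥K N) π₀ * v ∈
          chart (A₀.comap (algebraMap ↥K Lbar)) (coordM ↥K N x₀ hmemN)⁻¹ →
        v ∈ chart (A₀.comap (algebraMap ↥K Lbar)) (coordM ↥K N x₀ hmemN)⁻¹) ∧
      (∀ v ∈ h6V (A₀.comap (algebraMap ↥K Lbar)) M N hMN q hqN,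
        algebraMap (A₀.comap (algebraMap ↥K Lbar)) (FM ↥K N) π₀ * v ∈
          chart₁₂ (A₀.comap (algebraMap ↥K Lbar)) (coordM ↥K N x₀ hmemN)
            (coordM ↥K N x₀ hmemN)⁻¹ →
        v ∈ chart₁₂ (A₀.comap (algebraMap ↥K Lbar)) (coordM ↥K N x₀ hmemN)
          (coordM ↥K N x₀ hmemN)⁻¹))
    (hcomp₁ : H7Comp (⟨algebraMap (A₀.comap (algebraMap ↥K Lbar)) (FM ↥K N) π₀,
        (chart (A₀.comap (algebraMap ↥K Lbar)) (coordM ↥K N x₀ hmemN)).algebraMap_mem π₀⟩ :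
      (chart (A₀.comap (algebraMap ↥K Lbar)) (coordM ↥K N x₀ hmemN)).toSubring))
    (hcomp₂ : H7Comp (⟨algebraMap (A₀.comap (algebraMap ↥K Lbar)) (FM ↥K N) π₀,
        (chart (A₀.comap (algebraMap ↥K Lbar)) (coordM ↥K N x₀ hmemN)⁻¹).algebraMap_mem π₀⟩ :
      (chart (A₀.comap (algebraMap ↥K Lbar)) (coordM ↥K N x₀ hmemN)⁻¹).toSubring))
    (p : ℕ) (hp : p.Prime) (hqp : q ≠ p) (n k : ℕ) (hkn : k < n)
    (ζ₀ : A₀.comap (algebraMap ↥K Lbar)) (hζ₀ : IsPrimitiveRoot ζ₀ (p ^ n))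
    (f : FM ↥K N) (hf0 : f ≠ 0)
    (hdiv : ∀ v : Place ↥K (FM ↥K N), ((p ^ n : ℕ) : ℤ) ∣ v.ord f)
    (hrat : ∀ v : Place ↥K (FM ↥K N), v.ord f ≠ 0 → Fermat.Agent.S24.RH.ResidueTrivial v)
    (g : FM ↥K N)
    (hg : g ^ (p ^ k)
      = tauF N (tauK K τ) (tauF N (tauK K τ) f) * f / (tauF N (tauK K τ) f) ^ 2) :
    ∃ t : ↥(modularFunctionFieldBar N),
      t ^ (p ^ (k + 1)) = iotaK ↥K N
        (tauF N (tauK K τ) (tauF N (tauK K τ) f) * f / (tauF N (tauK K τ) f) ^ 2) := by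
  have hq0 : (q : IsLocalRing.ResidueField (A₀.comap (algebraMap ↥K Lbar))) = 0 := by
    haveI := h23_charP_residueField (K := ↥K) A₀ hq hA₀
    exact CharP.cast_eq_zero _ q
  obtain ⟨ε, ε', hεε', hε⟩ := h12_tauK_unif A₀ K hτ π₀ hπ₀
  obtain ⟨e₁, e₂, h2, -, -⟩ :=
    h6_two (A₀.comap (algebraMap ↥K Lbar)) M N hMN q hq hqN π₀ hπ₀ hq0 hgen
  have hqp' : ¬ q ∣ p := fun h => hqp ((Nat.prime_dvd_prime_iff_eq hq hp).mp h)
  obtain ⟨μ₀, hμ⟩ := isUnit_iff_exists_inv'.mp (h23_isUnit_natCast (K := ↥K) A₀ hq hA₀ p hqp')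
  have hx := (coord_inputs (A₀.comap (algebraMap ↥K Lbar)) N x₀ hmemN hord hlead)
  haveI := h2.c₁.ideal_isPrime
  haveI := h2.c₂.ideal_isPrime
  exact Fermat.Agent.S34x.Cross.H18.h18_base_step A₀ N K (tauK K τ) (h12_tauK_mem A₀ K hτ)
    x₀ hord hlead hmemN π₀ hπ₀
    (h6V (A₀.comap (algebraMap ↥K Lbar)) M N hMN q hqN)
    (h6_hVic (A₀.comap (algebraMap ↥K Lbar)) M N hMN q hq hqN π₀ hπ₀ hq0 hgen)
    (h6_hOV (A₀.comap (algebraMap ↥K Lbar)) M N hMN q hqN)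
    (h6_coord_mem (A₀.comap (algebraMap ↥K Lbar)) M N hMN q hqN x₀ hmemM hmemN)
    (h6_coord_inv_mem (A₀.comap (algebraMap ↥K Lbar)) M N hMN q hqN x₀ hlead hmemM hmemN)
    (h6_hπV (A₀.comap (algebraMap ↥K Lbar)) M N hMN q hq hqN π₀ hπ₀ hq0 hgen)
    hsat.1 hsat.2.1 hsat.2.2 p hp μ₀ hμ n k hkn ζ₀ hζ₀ h2.c₁.ideal h2.c₂.ideal
    h2.c₁.pi_mem_ideal h2.c₂.pi_mem_ideal (fun v h₁ h₂ => h2.cap v h₁ h₂)
    ε ε' hεε'
    (h6_tauF_unif (A₀.comap (algebraMap ↥K Lbar)) N (tauK K τ) π₀ ε hε)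
    (h6_htriv_inst (A₀.comap (algebraMap ↥K Lbar)) M N hMN q hqN (tauK K τ)
      (h12_tauK_mem A₀ K hτ) (h12_tauK_res A₀ K hτ) π₀ hπ₀)
    (h6_hU_inst (A₀.comap (algebraMap ↥K Lbar)) M N hMN q hq hqN (tauK K τ)
      (h12_tauK_mem A₀ K hτ) (h12_tauK_res A₀ K hτ) π₀ hπ₀ hq0 hgen ε ε' hεε' hε)
    f hf0
    (h26_LP_first (K := ↥K) π₀ hπ₀ hx.2.1 hx.2.2.1 hcomp₁ (p ^ n) (pow_pos hp.pos n) f hf0
      hdiv hrat)
    (h26_LP_second (K := ↥K) π₀ hπ₀ hx.1 hx.2.1 hx.2.2.1 hcomp₂ (p ^ n) (pow_pos hp.pos n) f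
      hf0 hdiv hrat)
    g hg

end Step

section Geom

open Fermat.Agent.S18x.IG.H28 Fermat.Agent.S34x.Sat.H21

/-- **NAMED HYPOTHESIS 1 = (GEN)** (stage (A), helper9 / helper2): helper6's `H6Gen` at the
levels `M ∣ M q` over every number field inside `ℚ̄`. -/
def H12GenAt (M q : ℕ) [NeZero M] [NeZero (M * q)] [NeZero q] : Prop :=
  ∀ K : IntermediateField ℚ Lbar, FiniteDimensional ℚ ↥K → H6Gen (K := ↥K) M (M * q) q

/-- **NAMED HYPOTHESIS 2 = the export of stage (C)** (helper7's `H7_CompInst`): `H7Comp` on the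
two charts of the base coordinate `x = coordM K (M q) x₀`, over every number field `K` inside
`ℚ̄`, normal over `ℚ`, with `O = B ∩ K` a discrete valuation ring, at every uniformiser `π₀`
of `O`; the `O`-algebra structures are ANY ones compatible with the `K`-algebra structures. -/
def H12CompAt (B : ValuationSubring Lbar) (M q : ℕ) [NeZero M] [NeZero (M * q)]
    (x₀ : LaurentSeries ℤ) : Prop :=
  ∀ (K : IntermediateField ℚ Lbar), FiniteDimensional ℚ ↥K → Normal ℚ ↥K →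
    ∀ [IsDiscreteValuationRing (B.comap (algebraMap ↥K Lbar))]
      [Algebra (B.comap (algebraMap ↥K Lbar)) (FM ↥K M)]
      [IsScalarTower (B.comap (algebraMap ↥K Lbar)) ↥K (FM ↥K M)]
      [Algebra (B.comap (algebraMap ↥K Lbar)) (FM ↥K (M * q))]
      [IsScalarTower (B.comap (algebraMap ↥K Lbar)) ↥K (FM ↥K (M * q))]
      (hmemM : coeffMap (Int.castRingHom ↥K) x₀ ∈ modularFunctionFieldFullC ↥K M)
      (hmemN : coeffMap (Int.castRingHom ↥K) x₀ ∈ modularFunctionFieldFullC ↥K (M * q))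
      (π₀ : B.comap (algebraMap ↥K Lbar)), Irreducible π₀ →
      H7Comp (⟨algebraMap (B.comap (algebraMap ↥K Lbar)) (FM ↥K (M * q)) π₀,
          (chart (B.comap (algebraMap ↥K Lbar)) (coordM ↥K (M * q) x₀ hmemN)).algebraMap_mem
            π₀⟩ :
        (chart (B.comap (algebraMap ↥K Lbar)) (coordM ↥K (M * q) x₀ hmemN)).toSubring) ∧
      H7Comp (⟨algebraMap (B.comap (algebraMap ↥K Lbar)) (FM ↥K (M * q)) π₀,
          (chart (B.comap (algebraMap ↥K Lbar)) (coordM ↥K (M * q) x₀ hmemN)⁻¹).algebraMap_mem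
            π₀⟩ :
        (chart (B.comap (algebraMap ↥K Lbar)) (coordM ↥K (M * q) x₀ hmemN)⁻¹).toSubring)

variable (M q p : ℕ) [NeZero M] [NeZero (M * q)] [NeZero q]
  (hq : q.Prime) (hp : p.Prime) (hqp : q ≠ p) (hqM : ¬ q ∣ M)
  (B : ValuationSubring Lbar) (hB : B.LiesOverPrime q)
  {τ : Lbar ≃ₐ[ℚ] Lbar} (hτ : τ ∈ B.inertiaSubgroupIn ℚ)

include hq hp hqp hqM hB hτ

/-- **The capstone, Hauptmodul of level `2`** (`2 ∣ M`, `q ≠ 2`). -/
theorem h12_pack_two (h2M : 2 ∣ M) (hq2 : q ≠ 2)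
    (hgen : H12GenAt M q) (hcomp : H12CompAt B M q h2) : H12StepPack (M * q) p B τ := by
  intro n K hKfin hKn ζ₀ hζ₀ f hf0 hdiv hrat k hkn e he
  haveI := hKfin
  haveI := hKn
  haveI : IsDiscreteValuationRing (B.comap (algebraMap ↥K Lbar)) :=
    h23_isDVR_intermediate B hq hB K
  letI aM : Algebra (B.comap (algebraMap ↥K Lbar)) (FM ↥K M) :=
    ((algebraMap ↥K (FM ↥K M)).comp (B.comap (algebraMap ↥K Lbar)).subtype).toAlgebra
  haveI : IsScalarTower (B.comap (algebraMap ↥K Lbar)) ↥K (FM ↥K M) :=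
    IsScalarTower.of_algebraMap_eq (fun c => rfl)
  letI aN : Algebra (B.comap (algebraMap ↥K Lbar)) (FM ↥K (M * q)) :=
    ((algebraMap ↥K (FM ↥K (M * q))).comp (B.comap (algebraMap ↥K Lbar)).subtype).toAlgebra
  haveI : IsScalarTower (B.comap (algebraMap ↥K Lbar)) ↥K (FM ↥K (M * q)) :=
    IsScalarTower.of_algebraMap_eq (fun c => rfl)
  haveI : Fact q.Prime := ⟨hq⟩
  haveI := h23_charP_residueField (K := ↥K) B hq hB
  obtain ⟨π₀, hπ₀⟩ := IsDiscreteValuationRing.exists_irreducible (B.comap (algebraMap ↥K Lbar))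
  have hMN : M ∣ M * q := Dvd.intro _ rfl
  have hqN : q ∣ M * q := Dvd.intro_left _ rfl
  have hmemM := h2_mem_full ↥K M h2M
  have hmemN := h2_mem_full ↥K (M * q) (h2M.trans hMN)
  have hsat := h21_sat_coord2 (B.comap (algebraMap ↥K Lbar)) M (M * q) hMN (h2M.trans hMN)
    π₀ hπ₀ q hqM hq2 (h6V (B.comap (algebraMap ↥K Lbar)) M (M * q) hMN q hqN)
    (h6V_le_gens (B.comap (algebraMap ↥K Lbar)) M (M * q) hMN q hqN hq)
    (h6_coord_mem (B.comap (algebraMap ↥K Lbar)) M (M * q) hMN q hqN h2 hmemM hmemN)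
  obtain ⟨hc₁, hc₂⟩ := hcomp K hKfin hKn hmemM hmemN π₀ hπ₀
  exact h12_pack_step B M (M * q) hMN q hq hqN K hB hτ (hgen K hKfin) h2 order_h2
    coeff_h2_neg_one hmemM hmemN π₀ hπ₀ hsat hc₁ hc₂ p hp hqp n k hkn ζ₀ hζ₀ f hf0 hdiv hrat e he

/-- **The capstone, Hauptmodul of level `3`** (`3 ∣ M`, `q ≠ 3`). -/
theorem h12_pack_three (h3M : 3 ∣ M) (hq3 : q ≠ 3)
    (hgen : H12GenAt M q) (hcomp : H12CompAt B M q h3) : H12StepPack (M * q) p B τ := by
  intro n K hKfin hKn ζ₀ hζ₀ f hf0 hdiv hrat k hkn e he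
  haveI := hKfin
  haveI := hKn
  haveI : IsDiscreteValuationRing (B.comap (algebraMap ↥K Lbar)) :=
    h23_isDVR_intermediate B hq hB K
  letI aM : Algebra (B.comap (algebraMap ↥K Lbar)) (FM ↥K M) :=
    ((algebraMap ↥K (FM ↥K M)).comp (B.comap (algebraMap ↥K Lbar)).subtype).toAlgebra
  haveI : IsScalarTower (B.comap (algebraMap ↥K Lbar)) ↥K (FM ↥K M) :=
    IsScalarTower.of_algebraMap_eq (fun c => rfl)
  letI aN : Algebra (B.comap (algebraMap ↥K Lbar)) (FM ↥K (M * q)) :=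
    ((algebraMap ↥K (FM ↥K (M * q))).comp (B.comap (algebraMap ↥K Lbar)).subtype).toAlgebra
  haveI : IsScalarTower (B.comap (algebraMap ↥K Lbar)) ↥K (FM ↥K (M * q)) :=
    IsScalarTower.of_algebraMap_eq (fun c => rfl)
  haveI : Fact q.Prime := ⟨hq⟩
  haveI := h23_charP_residueField (K := ↥K) B hq hB
  obtain ⟨π₀, hπ₀⟩ := IsDiscreteValuationRing.exists_irreducible (B.comap (algebraMap ↥K Lbar))
  have hMN : M ∣ M * q := Dvd.intro _ rfl
  have hqN : q ∣ M * q := Dvd.intro_left _ rfl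
  have hmemM := h3_mem_full ↥K M h3M
  have hmemN := h3_mem_full ↥K (M * q) (h3M.trans hMN)
  have hsat := h21_sat_coord3 (B.comap (algebraMap ↥K Lbar)) M (M * q) hMN (h3M.trans hMN)
    π₀ hπ₀ q hqM hq3 (h6V (B.comap (algebraMap ↥K Lbar)) M (M * q) hMN q hqN)
    (h6V_le_gens (B.comap (algebraMap ↥K Lbar)) M (M * q) hMN q hqN hq)
    (h6_coord_mem (B.comap (algebraMap ↥K Lbar)) M (M * q) hMN q hqN h3 hmemM hmemN)
  obtain ⟨hc₁, hc₂⟩ := hcomp K hKfin hKn hmemM hmemN π₀ hπ₀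
  exact h12_pack_step B M (M * q) hMN q hq hqN K hB hτ (hgen K hKfin) h3 order_h3
    coeff_h3_neg_one hmemM hmemN π₀ hπ₀ hsat hc₁ hc₂ p hp hqp n k hkn ζ₀ hζ₀ f hf0 hdiv hrat e he

end Geom

section Top

open Fermat.Agent.S18x.IG.H28

/-- **(GEN) at all levels** `M ∣ M q`, `q ∤ M` prime. -/
def H12GenAll : Prop :=
  ∀ (M q : ℕ) [NeZero M] [NeZero (M * q)] [NeZero q], q.Prime → ¬ q ∣ M → H12GenAt M q

/-- **The export of stage (C) at all levels**: `H7Comp` on the two charts of the Hauptmodul of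
level `2` (`2 ∣ M`, `q ≠ 2`) and of level `3` (`3 ∣ M`, `q ≠ 3`), for every valuation subring
of `ℚ̄` over `q`. -/
def H12CompAll : Prop :=
  ∀ (M q : ℕ) [NeZero M] [NeZero (M * q)], q.Prime → ¬ q ∣ M →
    ∀ B : ValuationSubring Lbar, B.LiesOverPrime q →
      (2 ∣ M → q ≠ 2 → H12CompAt B M q h2) ∧ (3 ∣ M → q ≠ 3 → H12CompAt B M q h3)

/-- **THE CAPSTONE**: the `K`-level one-step statement `H12StepPack (M * q) p B τ` at every
inertia element `τ` over `q`, in the binders of helper16's `StKumGeom`, from the two named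
hypotheses (GEN) and (C). -/
theorem h12_pack_geom (hgen : H12GenAll) (hcomp : H12CompAll)
    (M q p p₀ : ℕ) (hM : M ≠ 0) (hq : q.Prime) (hp : p.Prime) (hqp : q ≠ p) (hqM : ¬ q ∣ M)
    (hp₀ : p₀ = 2 ∨ p₀ = 3) (hp₀q : p₀ ≠ q) (hp₀M : p₀ ∣ M)
    (B : ValuationSubring Lbar) (hB : B.LiesOverPrime q)
    (τ : Lbar ≃ₐ[ℚ] Lbar) (hτ : τ ∈ B.inertiaSubgroupIn ℚ) [NeZero (M * q)] :
    H12StepPack (M * q) p B τ := by
  haveI : NeZero M := ⟨hM⟩
  haveI : NeZero q := ⟨hq.ne_zero⟩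
  obtain ⟨hc2, hc3⟩ := hcomp M q hq hqM B hB
  rcases hp₀ with rfl | rfl
  · exact h12_pack_two M q p hq hp hqp hqM B hB hτ hp₀M (fun h => hp₀q h.symm)
      (hgen M q hq hqM) (hc2 hp₀M (fun h => hp₀q h.symm))
  · exact h12_pack_three M q p hq hp hqp hqM B hB hτ hp₀M (fun h => hp₀q h.symm)
      (hgen M q hq hqM) (hc3 hp₀M (fun h => hp₀q h.symm))

/-- **The geometric export of W10** (helper16's `StKumGeom`) from the two named hypotheses. -/
theorem h12_stKumGeom (hgen : H12GenAll) (hcomp : H12CompAll) :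
    Fermat.Agent.S34x.Desc.H16.StKumGeom := by
  intro M q p p₀ hM hq hp hqp hqM hp₀ hp₀q hp₀M B hB τ hτ
  haveI : NeZero (M * q) := ⟨Nat.mul_ne_zero hM hq.ne_zero⟩
  exact h12_stKumSS_of_pack hp.ne_zero B τ
    (h12_pack_geom hgen hcomp M q p p₀ hM hq hp hqp hqM hp₀ hp₀q hp₀M B hB τ hτ)

end Top

end Fermat.Agent.S34x.Asm.H12
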