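import Mathlib
import Fermat.Agent.S34x.Desc.H12_K1
import Fermat.Agent.S34x.Desc.H16_FinalPlug
import Fermat.Agent.S34x.Cross.H18_Step
import Fermat.Agent.S34x.Loc.H26_LPAll
import Fermat.Agent.S34x.Dict.H16_Inst
import Fermat.Agent.S18x.Dict.H7_KumInst
import Fermat.Agent.S18x.IG.H29_Coord
import Fermat.Agent.S18x.IG.H28_HmInst

/-!
# S34 (W10), ASSEMBLY (helper25): the geometric chain ⟹ `StKumGeom`

`L = ℚ̄`, `B` a valuation subring of `L` over `q`, `τ` in its inertia group, `K ⊆ L` a number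
field normal over `ℚ`, `O = B ∩ K` (a discrete valuation ring with uniformiser `π₀`),
`N = M q` (`q ∤ M`), `F = F_K(N) = modularFunctionFieldFullC K N`, `σ = tauF N (tauK K τ)`,
`x` the Hauptmodul of level `p₀ ∈ {2, 3}` (`p₀ ∣ M`, `p₀ ≠ q`) seen in `F`.

* `H25VPack B K N σ x π₀` : **the export of stages (A) + (B)**: the two-component ring `V ⊆ F`
  (integrally closed, `O ⊆ V`, `x, x⁻¹ ∈ V`, `π₀ ∉ Vˣ`, saturated in the three charts, two prime
  ideals over `π₀` with intersection `π₀ V`, (TRIV) and (U) for `σ`), in the spelling of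
  helper18's `h18_ss_step`;
* `H25Comp B K N x π₀` : **the export of stage (C)**: helper7's `H7Comp` on the two charts
  `chart O x`, `chart O x⁻¹`;
* `h25_LP_of_comp` : `hLP` of `h18_ss_step` on a chart from `H7Comp` (helper26's `h26_LP_chart`
  with helper16's instance layer);
* `h25_pack_step` : the one-step statement over `K` from `H25VPack` + `H25Comp`
  (helper18's `h18_ss_step`, all the other inputs discharged);
* `StVPack`, `StComp` : the two exports, quantified as in helper16's `StKumGeom`;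
* `h25_stKumGeom` : **`StVPack → StComp → Desc.H16.StKumGeom`**.
-/

set_option autoImplicit false
set_option linter.unusedSectionVars false
set_option linter.unusedVariables false
set_option linter.style.haveILetI false
set_option synthInstance.maxHeartbeats 400000
set_option maxHeartbeats 1000000

noncomputable section

namespace Fermat.Agent.S34x.Asm.H25

open AlgebraicCurve ModularCurve IntermediateField HahnSeries Polynomial
open Fermat.Agent.S18x.Dict.H20 Fermat.Agent.S18x.Dict.H22 Fermat.Agent.S18x.Dict.H23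
open Fermat.Agent.S18x.Spec.H26 Fermat.Agent.S34x.Desc.H12 Fermat.Agent.S34x.Comp.H7
open Fermat.Agent.S18x.IG.H28

local notation "Lbar" => AlgebraicClosure ℚ

section Defs

variable (A₀ : ValuationSubring Lbar) (K : IntermediateField ℚ Lbar) (N : ℕ) [NeZero N]

/-- **The export of stages (A) + (B)** over `(K, O = A₀ ∩ K)` at level `N`, for the
automorphism `σ` of `F = F_K(N)`, the coordinate `x` and the uniformiser `π₀`: the
two-component ring `V` with all the hypotheses of `h18_ss_step` on it. -/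
def H25VPack (σ : ↥(modularFunctionFieldFullC ↥K N) ≃+* ↥(modularFunctionFieldFullC ↥K N))
    (x : ↥(modularFunctionFieldFullC ↥K N)) (π₀ : A₀.comap (algebraMap ↥K Lbar)) : Prop :=
  ∃ V : Subring ↥(modularFunctionFieldFullC ↥K N),
    (∀ y : ↥(modularFunctionFieldFullC ↥K N), IsIntegral V y → y ∈ V) ∧
    (∀ c : A₀.comap (algebraMap ↥K Lbar),
      algebraMap (A₀.comap (algebraMap ↥K Lbar)) ↥(modularFunctionFieldFullC ↥K N) c ∈ V) ∧
    x ∈ V ∧ x⁻¹ ∈ V ∧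
    (∀ v ∈ V, algebraMap (A₀.comap (algebraMap ↥K Lbar))
      ↥(modularFunctionFieldFullC ↥K N) π₀ * v ≠ 1) ∧
    (∀ v ∈ V, algebraMap (A₀.comap (algebraMap ↥K Lbar))
      ↥(modularFunctionFieldFullC ↥K N) π₀ * v ∈ chart (A₀.comap (algebraMap ↥K Lbar)) x →
        v ∈ chart (A₀.comap (algebraMap ↥K Lbar)) x) ∧
    (∀ v ∈ V, algebraMap (A₀.comap (algebraMap ↥K Lbar))
      ↥(modularFunctionFieldFullC ↥K N) π₀ * v ∈ chart (A₀.comap (algebraMap ↥K Lbar)) x⁻¹ →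
        v ∈ chart (A₀.comap (algebraMap ↥K Lbar)) x⁻¹) ∧
    (∀ v ∈ V, algebraMap (A₀.comap (algebraMap ↥K Lbar))
      ↥(modularFunctionFieldFullC ↥K N) π₀ * v ∈
        chart₁₂ (A₀.comap (algebraMap ↥K Lbar)) x x⁻¹ →
        v ∈ chart₁₂ (A₀.comap (algebraMap ↥K Lbar)) x x⁻¹) ∧
    (∃ P₁ P₂ : Ideal V, P₁.IsPrime ∧ P₂.IsPrime ∧
      (∀ h : algebraMap (A₀.comap (algebraMap ↥K Lbar))
          ↥(modularFunctionFieldFullC ↥K N) π₀ ∈ V,
        (⟨algebraMap (A₀.comap (algebraMap ↥K Lbar))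
          ↥(modularFunctionFieldFullC ↥K N) π₀, h⟩ : V) ∈ P₁) ∧
      (∀ h : algebraMap (A₀.comap (algebraMap ↥K Lbar))
          ↥(modularFunctionFieldFullC ↥K N) π₀ ∈ V,
        (⟨algebraMap (A₀.comap (algebraMap ↥K Lbar))
          ↥(modularFunctionFieldFullC ↥K N) π₀, h⟩ : V) ∈ P₂) ∧
      (∀ v : V, v ∈ P₁ → v ∈ P₂ → ∃ c ∈ V,
        (v : ↥(modularFunctionFieldFullC ↥K N)) =
          algebraMap (A₀.comap (algebraMap ↥K Lbar))
            ↥(modularFunctionFieldFullC ↥K N) π₀ * c)) ∧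
    (∀ v ∈ V, ∃ c ∈ V, σ v - v = algebraMap (A₀.comap (algebraMap ↥K Lbar))
      ↥(modularFunctionFieldFullC ↥K N) π₀ * c) ∧
    (∀ g : ↥(modularFunctionFieldFullC ↥K N), g ≠ 0 → σ g / g ∈ V ∧ g / σ g ∈ V)

/-- **The export of stage (C)** over `(K, O = A₀ ∩ K)` at level `N`: every closed point of the
special fibre of the two charts of the coordinate `x` is of type (ONE) or (BOTH). -/
def H25Comp (x : ↥(modularFunctionFieldFullC ↥K N)) (π₀ : A₀.comap (algebraMap ↥K Lbar)) :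
    Prop :=
  H7Comp (⟨algebraMap (A₀.comap (algebraMap ↥K Lbar)) ↥(modularFunctionFieldFullC ↥K N) π₀,
      (chart (A₀.comap (algebraMap ↥K Lbar)) x).algebraMap_mem π₀⟩ :
    (chart (A₀.comap (algebraMap ↥K Lbar)) x).toSubring) ∧
  H7Comp (⟨algebraMap (A₀.comap (algebraMap ↥K Lbar)) ↥(modularFunctionFieldFullC ↥K N) π₀,
      (chart (A₀.comap (algebraMap ↥K Lbar)) x⁻¹).algebraMap_mem π₀⟩ :
    (chart (A₀.comap (algebraMap ↥K Lbar)) x⁻¹).toSubring)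

end Defs

section LP

variable {O K F : Type*} [CommRing O] [IsDomain O] [IsDiscreteValuationRing O]
  [Field K] [Algebra O K] [IsFractionRing O K]
  [Field F] [CharZero F] [Algebra K F] [Algebra O F] [IsScalarTower O K F]

/-- **(LP) on a chart from the export of (C)**: helper26's `h26_LP_chart` with helper16's
instance layer (`A := chart K x`). -/
theorem h25_LP_of_comp (π₀ : O) (hπ₀ : Irreducible π₀) (x : F) (hx : Transcendental O x)
    (hfin : H26FinOver O x)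
    (hcomp : H7Comp (⟨algebraMap O F π₀, (chart O x).algebraMap_mem π₀⟩ :
      (chart O x).toSubring))
    (m : ℕ) (hm : 0 < m) (f : F) (hf0 : f ≠ 0)
    (hdiv : ∀ P : Place K F, (m : ℤ) ∣ P.ord f)
    (hrat : ∀ P : Place K F, P.ord f ≠ 0 → Fermat.Agent.S24.RH.ResidueTrivial P) :
    ∀ 𝔫 : Ideal (chart O x).toSubring, 𝔫.IsMaximal →
      (⟨algebraMap O F π₀, (chart O x).algebraMap_mem π₀⟩ : (chart O x).toSubring) ∈ 𝔫 →
      ∃ d w₀ : F, d ≠ 0 ∧ w₀ ≠ 0 ∧ f = d ^ m * w₀ ∧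
        Fermat.Agent.S34x.Loc.H26.InLoc (chart O x).toSubring (algebraMap O F π₀) 𝔫 w₀ ∧
        Fermat.Agent.S34x.Loc.H26.InLoc (chart O x).toSubring (algebraMap O F π₀) 𝔫 w₀⁻¹ := by
  letI := Fermat.Agent.S34x.Dict.H16.h16AlgK K x
  obtain ⟨hBA, hnoeth, hded, hfrac, htower, -, hA⟩ :=
    Fermat.Agent.S34x.Dict.H16.h16_inst (K := K) π₀ hπ₀ hx hfin
  haveI := hnoeth
  haveI := hded
  haveI := hfrac
  haveI := htower
  exact Fermat.Agent.S34x.Loc.H26.h26_LP_chart (K := K) x (chart K x).toSubring hBA π₀ hπ₀ hA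
    hcomp m hm f hf0 hdiv hrat

end LP

section Step

variable (A₀ : ValuationSubring Lbar) {ℓ : ℕ} (hℓ : ℓ.Prime) (hA : A₀.LiesOverPrime ℓ)
  (N : ℕ) [NeZero N] (K : IntermediateField ℚ Lbar) [FiniteDimensional ℚ ↥K] [Normal ℚ ↥K]
  [IsDiscreteValuationRing (A₀.comap (algebraMap ↥K Lbar))]

include hℓ hA in
/-- **The one-step statement over `K`** from the exports of (A) + (B) and of (C). -/
theorem h25_pack_step {τ : Lbar ≃ₐ[ℚ] Lbar} (hτ : τ ∈ A₀.inertiaSubgroupIn ℚ)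
    (x₀ : LaurentSeries ℤ) (hord : x₀.order = -1) (hlead : x₀.coeff (-1) = 1)
    (hmem : coeffMap (Int.castRingHom ↥K) x₀ ∈ modularFunctionFieldFullC ↥K N)
    (π₀ : A₀.comap (algebraMap ↥K Lbar)) (hπ₀ : Irreducible π₀)
    (hV : H25VPack A₀ K N (tauF N (tauK K τ))
      (Fermat.Agent.S18x.IG.H29.coordM ↥K N x₀ hmem) π₀)
    (hC : H25Comp A₀ K N (Fermat.Agent.S18x.IG.H29.coordM ↥K N x₀ hmem) π₀)
    (p : ℕ) (hp : p.Prime) (hpℓ : p ≠ ℓ) (n : ℕ)
    (ζ₀ : A₀.comap (algebraMap ↥K Lbar)) (hζ₀ : IsPrimitiveRoot ζ₀ (p ^ n))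
    (f : ↥(modularFunctionFieldFullC ↥K N)) (hf0 : f ≠ 0)
    (hdiv : ∀ v : Place ↥K ↥(modularFunctionFieldFullC ↥K N), ((p ^ n : ℕ) : ℤ) ∣ v.ord f)
    (hrat : ∀ v : Place ↥K ↥(modularFunctionFieldFullC ↥K N), v.ord f ≠ 0 →
      Fermat.Agent.S24.RH.ResidueTrivial v)
    (k : ℕ) (hkn : k < n) (e : ↥(modularFunctionFieldFullC ↥K N))
    (he : e ^ (p ^ k)
      = tauF N (tauK K τ) (tauF N (tauK K τ) f) * f / (tauF N (tauK K τ) f) ^ 2) :
    ∃ t : ↥(modularFunctionFieldBar N),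
      t ^ (p ^ (k + 1)) = iotaK ↥K N
        (tauF N (tauK K τ) (tauF N (tauK K τ) f) * f / (tauF N (tauK K τ) f) ^ 2) := by
  haveI : IsScalarTower (A₀.comap (algebraMap ↥K Lbar)) ↥K ↥(modularFunctionFieldFullC ↥K N) :=
    IsScalarTower.of_algebraMap_eq (fun c => rfl)
  letI : Algebra ↥(modularFunctionFieldFullC ↥K N) ↥(modularFunctionFieldBar N) :=
    (iotaK ↥K N).toAlgebra
  -- the coordinate
  obtain ⟨hxx', hx, hfin, -, -⟩ :=
    Fermat.Agent.S18x.IG.H29.coord_inputs (K := ↥K) (A₀.comap (algebraMap ↥K Lbar)) N x₀ hmem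
      hord hlead
  have hx' := h26_transcendental_inv (O := A₀.comap (algebraMap ↥K Lbar)) hxx' hx
  have hfin' := h26_finOver_inv (O := A₀.comap (algebraMap ↥K Lbar)) hxx' hfin
  -- the inverse of `p`
  have hnd : ¬ ℓ ∣ p := by
    intro h
    exact hpℓ ((Nat.prime_dvd_prime_iff_eq hℓ hp).mp h).symm
  obtain ⟨u, hu⟩ := h23_isUnit_natCast (K := ↥K) A₀ hℓ hA p hnd
  have hμ : ((u⁻¹ : (A₀.comap (algebraMap ↥K Lbar))ˣ) : A₀.comap (algebraMap ↥K Lbar)) *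
      ((p : ℕ) : A₀.comap (algebraMap ↥K Lbar)) = 1 := by
    rw [← hu]
    exact Units.inv_mul u
  -- the `τ`-inputs
  obtain ⟨ε, ε', hεε', hε⟩ := h12_hε_final A₀ K N hτ π₀ hπ₀
  have hτ₁ := h12_hτ_chart A₀ K N hτ (Fermat.Agent.S18x.IG.H29.coordM ↥K N x₀ hmem)
    (tauF_coordM N (tauK K τ) x₀ hmem)
  have hτ₂ := h12_hτ_chart A₀ K N hτ (Fermat.Agent.S18x.IG.H29.coordM ↥K N x₀ hmem)⁻¹
    (tauF_coordM_inv N (tauK K τ) x₀ hmem)
  -- the `V`-package
  obtain ⟨V, hVic, hOV, hxV, hx'V, hπV, hs1, hs2, hs12, hP, htriv, hU⟩ := hV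
  obtain ⟨P₁, P₂, hP₁, hP₂, hπ₁, hπ₂, hcap⟩ := hP
  haveI := hP₁
  haveI := hP₂
  -- (LP) on the two charts
  have hLP₁ := h25_LP_of_comp (K := ↥K) π₀ hπ₀ _ hx hfin hC.1 (p ^ n) (pow_pos hp.pos n) f hf0
    hdiv hrat
  have hLP₂ := h25_LP_of_comp (K := ↥K) π₀ hπ₀ _ hx' hfin' hC.2 (p ^ n) (pow_pos hp.pos n) f
    hf0 hdiv hrat
  exact Fermat.Agent.S34x.Cross.H18.h18_ss_step (K := ↥K) (E := ↥(modularFunctionFieldBar N))
    π₀ hπ₀.prime (Fermat.Agent.S18x.IG.H29.coordM ↥K N x₀ hmem)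
    (Fermat.Agent.S18x.IG.H29.coordM ↥K N x₀ hmem)⁻¹ hxx' hx hfin V hVic hOV hxV hx'V hπV
    hs1 hs2 hs12 p hp _ hμ (Fermat.Agent.S18x.Dict.H7.h7_hK N)
    (fun P hP hirr => Fermat.Agent.S18x.Dict.H7.h7_hE N K P hP hirr)
    n k hkn ζ₀ hζ₀ P₁ P₂ (hπ₁ _) (hπ₂ _) hcap (tauF N (tauK K τ)) hτ₁ hτ₂ ε ε' hεε' hε
    htriv hU f hf0 hLP₁ hLP₂ e he

end Step

section Top

/-- **The export of stages (A) + (B)**, quantified as in helper16's `StKumGeom`: the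
`V`-package at level `M q` over every number field `K` normal over `ℚ`, for the Hauptmodul
`x₀ = h2` (`p₀ = 2`) resp. `x₀ = h3` (`p₀ = 3`) and every inertia element `τ` over `q`. -/
def StVPack : Prop :=
  ∀ (M q p₀ : ℕ), M ≠ 0 → q.Prime → ¬ q ∣ M → p₀ ≠ q → p₀ ∣ M →
    ∀ x₀ : LaurentSeries ℤ, (p₀ = 2 ∧ x₀ = h2) ∨ (p₀ = 3 ∧ x₀ = h3) →
    ∀ [NeZero (M * q)],
    ∀ B : ValuationSubring Lbar, B.LiesOverPrime q → ∀ τ ∈ B.inertiaSubgroupIn ℚ,
    ∀ K : IntermediateField ℚ Lbar, FiniteDimensional ℚ ↥K → ∀ [Normal ℚ ↥K]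
      [IsDiscreteValuationRing (B.comap (algebraMap ↥K Lbar))]
      (hmem : coeffMap (Int.castRingHom ↥K) x₀ ∈ modularFunctionFieldFullC ↥K (M * q))
      (π₀ : B.comap (algebraMap ↥K Lbar)), Irreducible π₀ →
      H25VPack B K (M * q) (tauF (M * q) (tauK K τ))
        (Fermat.Agent.S18x.IG.H29.coordM ↥K (M * q) x₀ hmem) π₀

/-- **The export of stage (C)**, quantified as in helper16's `StKumGeom`: `H7Comp` on the two
charts of the Hauptmodul at level `M q` over every number field `K` normal over `ℚ`. -/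
def StComp : Prop :=
  ∀ (M q p₀ : ℕ), M ≠ 0 → q.Prime → ¬ q ∣ M → p₀ ≠ q → p₀ ∣ M →
    ∀ x₀ : LaurentSeries ℤ, (p₀ = 2 ∧ x₀ = h2) ∨ (p₀ = 3 ∧ x₀ = h3) →
    ∀ [NeZero (M * q)],
    ∀ B : ValuationSubring Lbar, B.LiesOverPrime q →
    ∀ K : IntermediateField ℚ Lbar, FiniteDimensional ℚ ↥K → ∀ [Normal ℚ ↥K]
      [IsDiscreteValuationRing (B.comap (algebraMap ↥K Lbar))]
      (hmem : coeffMap (Int.castRingHom ↥K) x₀ ∈ modularFunctionFieldFullC ↥K (M * q))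
      (π₀ : B.comap (algebraMap ↥K Lbar)), Irreducible π₀ →
      H25Comp B K (M * q) (Fermat.Agent.S18x.IG.H29.coordM ↥K (M * q) x₀ hmem) π₀

/-- **The assembly**: the exports of (A) + (B) and of (C) give helper16's `StKumGeom`, hence
S34 (`Desc.H16.h16_s34_of_geom`). -/
theorem h25_stKumGeom (hV : StVPack) (hC : StComp) : Fermat.Agent.S34x.Desc.H16.StKumGeom := by
  intro M q p p₀ hM hq hp hqp hqM hp₀ hp₀q hp₀M B hB τ hτ
  haveI : NeZero (M * q) := ⟨Nat.mul_ne_zero hM hq.ne_zero⟩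
  refine h12_stKumSS_of_pack hp.ne_zero B τ ?_
  intro n K hfin hnorm ζ₀ hζ₀ f hf0 hdiv hrat k hkn e he
  haveI := hfin
  haveI := hnorm
  haveI hdvr : IsDiscreteValuationRing (B.comap (algebraMap ↥K Lbar)) :=
    h23_isDVR_intermediate B hq hB K
  obtain ⟨π₀, hπ₀⟩ :=
    IsDiscreteValuationRing.exists_irreducible (B.comap (algebraMap ↥K Lbar))
  have hp₀N : p₀ ∣ M * q := Dvd.dvd.mul_right hp₀M q
  rcases hp₀ with h | h
  · have h2N : 2 ∣ M * q := h ▸ hp₀N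
    exact h25_pack_step B hq hB (M * q) K hτ h2 order_h2 coeff_h2_neg_one
      (h2_mem_full ↥K (M * q) h2N) π₀ hπ₀
      (hV M q p₀ hM hq hqM hp₀q hp₀M h2 (Or.inl ⟨h, rfl⟩) B hB τ hτ K hfin _ π₀ hπ₀)
      (hC M q p₀ hM hq hqM hp₀q hp₀M h2 (Or.inl ⟨h, rfl⟩) B hB K hfin _ π₀ hπ₀)
      p hp (Ne.symm hqp) n ζ₀ hζ₀ f hf0 hdiv hrat k hkn e he
  · have h3N : 3 ∣ M * q := h ▸ hp₀N
    exact h25_pack_step B hq hB (M * q) K hτ h3 order_h3 coeff_h3_neg_one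
      (h3_mem_full ↥K (M * q) h3N) π₀ hπ₀
      (hV M q p₀ hM hq hqM hp₀q hp₀M h3 (Or.inr ⟨h, rfl⟩) B hB τ hτ K hfin _ π₀ hπ₀)
      (hC M q p₀ hM hq hqM hp₀q hp₀M h3 (Or.inr ⟨h, rfl⟩) B hB K hfin _ π₀ hπ₀)
      p hp (Ne.symm hqp) n ζ₀ hζ₀ f hf0 hdiv hrat k hkn e he

end Top

end Fermat.Agent.S34x.Asm.H25
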