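import Mathlib
import Fermat.Agent.S34x.Top.H19_Bridge
import Fermat.Agent.S18x.Dict.H29_Div
import Fermat.Agent.S18x.Desc.H19_BridgeFin

/-!
# S34 (W10), assembly (helper25): the devissage `p → p ^ n` at the level of `ℚ̄`, with a growing
field of definition

`Lbar = ℚ̄`, `E = modularFunctionFieldBar N`, `F_K = modularFunctionFieldFullC K N` for an
intermediate field `K` of `Lbar / ℚ`, `ι = iotaK K N : F_K → E`, `τ ∈ G_ℚ` acting on `E`
coefficientwise (`arithmeticRingAut`), `δ² y = τ (τ y) * y / (τ y) ^ 2`.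

* `h25SD N τ y` : the second difference `δ² y` in `E`;
* `H25StepK N p τ n y K` : **the step over `K`** (the export of the geometric chain over ONE
  number field `K`, = the conclusion of `h25_ss_step_tau` / `h18_ss_step` instantiated at
  `(O_K, F_K)`): every `g ∈ F_K` with `(ι g) ^ (p ^ k) = δ² y`, `k < n`, yields a
  `p ^ (k + 1)`-th root of `δ² y` in `E`;
* `H25Step N p τ` : the step over every large normal number field `K` (`K₁` may depend on
  `(n, y)`), for every `f ∈ F_K` with `ι f = y` all of whose orders are divisible by `p ^ n`;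
* `h25_stKumSS_of_step` : `H25Step N p τ → StKumSS N p τ` (induction on `k ≤ n`; at every step
  the root found in `E` is descended, together with `y`, to a larger normal number field).
-/

set_option autoImplicit false
set_option linter.unusedSectionVars false
set_option linter.style.haveILetI false
set_option synthInstance.maxHeartbeats 400000
set_option maxHeartbeats 1000000

open AlgebraicCurve ModularCurve IntermediateField

noncomputable section

namespace Fermat.Agent.S34x.Asm.H25

open Fermat.Agent.S18x.Dict.H22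

local notation "Lbar" => AlgebraicClosure ℚ
local notation "GQ" => (AlgebraicClosure ℚ ≃ₐ[ℚ] AlgebraicClosure ℚ)

/-- The second difference `δ² y = τ (τ y) * y / (τ y) ^ 2` in `E = modularFunctionFieldBar N`
(the spelling of `Top.H19.StKumSS`). -/
def h25SD (N : ℕ) (τ : GQ) (y : ↥(modularFunctionFieldBar N)) : ↥(modularFunctionFieldBar N) :=
  arithmeticRingAut (modularFunctionFieldFull N) τ
      (arithmeticRingAut (modularFunctionFieldFull N) τ y) * y /
    (arithmeticRingAut (modularFunctionFieldFull N) τ y) ^ 2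

/-- **The step over one field `K`**: a `p ^ k`-th root of `δ² y` defined over `K` (`k < n`)
yields a `p ^ (k + 1)`-th root in `E`. -/
def H25StepK (N p : ℕ) [NeZero N] (τ : GQ) (n : ℕ) (y : ↥(modularFunctionFieldBar N))
    (K : IntermediateField ℚ Lbar) : Prop :=
  ∀ k : ℕ, k < n → ∀ g : ↥(modularFunctionFieldFullC ↥K N),
    (iotaK ↥K N g) ^ (p ^ k) = h25SD N τ y →
    ∃ u : ↥(modularFunctionFieldBar N), u ^ (p ^ (k + 1)) = h25SD N τ y

/-- **The step over every large normal number field.** -/
def H25Step (N p : ℕ) [NeZero N] (τ : GQ) : Prop :=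
  ∀ (n : ℕ) (y : ↥(modularFunctionFieldBar N)), y ≠ 0 →
    (∀ P : Place Lbar ↥(modularFunctionFieldBar N), ((p ^ n : ℕ) : ℤ) ∣ P.ord y) →
    ∃ K₁ : IntermediateField ℚ Lbar, FiniteDimensional ℚ K₁ ∧
      ∀ K : IntermediateField ℚ Lbar, K₁ ≤ K → FiniteDimensional ℚ K → Normal ℚ ↥K →
        ∀ f : ↥(modularFunctionFieldFullC ↥K N), iotaK ↥K N f = y →
          (∀ v : Place ↥K ↥(modularFunctionFieldFullC ↥K N), ((p ^ n : ℕ) : ℤ) ∣ v.ord f) →
          H25StepK N p τ n y K

/-- Every finite level is contained in a finite normal one. -/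
theorem h25_exists_normal (K₂ : IntermediateField ℚ Lbar) [FiniteDimensional ℚ K₂] :
    ∃ K : IntermediateField ℚ Lbar, K₂ ≤ K ∧ FiniteDimensional ℚ K ∧ Normal ℚ ↥K := by
  haveI : IsAlgClosure ℚ Lbar := AlgebraicClosure.instIsAlgClosure ℚ
  haveI : Normal ℚ Lbar := IsAlgClosure.normal ℚ Lbar
  exact ⟨IntermediateField.normalClosure ℚ ↥K₂ Lbar, IntermediateField.le_normalClosure K₂,
    normalClosure.is_finiteDimensional ℚ ↥K₂ Lbar, normalClosure.normal ℚ ↥K₂ Lbar⟩

/-- **The devissage at the level of `ℚ̄`**: the step over every large normal number field gives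
the Kummer form of (SS) at all exponents `p ^ n`. -/
theorem h25_stKumSS_of_step (N p : ℕ) [NeZero N] (τ : GQ) (h : H25Step N p τ) :
    Fermat.Agent.S34x.Top.H19.StKumSS N p τ := by
  intro n y hy hdiv
  obtain ⟨K₁, hK₁fin, hK₁⟩ := h n y hy hdiv
  have key : ∀ k : ℕ, k ≤ n → ∃ g : ↥(modularFunctionFieldBar N), g ^ (p ^ k) = h25SD N τ y := by
    intro k
    induction k with
    | zero => exact fun _ => ⟨h25SD N τ y, by rw [pow_zero, pow_one]⟩
    | succ k ih =>
      intro hk
      obtain ⟨g, hg⟩ := ih (by omega)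
      classical
      obtain ⟨K₀, hK₀fin, hK₀⟩ := Fermat.Agent.S18x.Dict.H29.h29_div_descent N
        (Fermat.Agent.S18x.Desc.H19.h19_exists_descent_finset N) (p ^ n) y hy hdiv {g}
      haveI := hK₀fin
      haveI := hK₁fin
      haveI : FiniteDimensional ℚ ↥(K₀ ⊔ K₁) := IntermediateField.finiteDimensional_sup K₀ K₁
      obtain ⟨K, hle, hKfin, hKnor⟩ := h25_exists_normal (K₀ ⊔ K₁)
      obtain ⟨hT, f, hf, hv⟩ := hK₀ K (le_sup_left.trans hle)
      obtain ⟨g', hg'⟩ := hT g (Finset.mem_singleton_self g)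
      exact hK₁ K (le_sup_right.trans hle) hKfin hKnor f hf hv k (by omega) g'
        (by rw [hg']; exact hg)
  obtain ⟨u, hu⟩ := key n le_rfl
  exact ⟨u, hu⟩

end Fermat.Agent.S34x.Asm.H25
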