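import Mathlib
import Fermat.Agent.S34x.Desc.H12_Inertia
import Fermat.Agent.S18x.Dict.H23_Dvr

/-!
# S34 (W10), assembly: three existence inputs of `h18_ss_step` over `(K, O = A₀ ∩ K)` (helper29)

`L = ℚ̄`, `A₀` a valuation subring of `L` over `q`, `K` a number field inside `L`,
`O = A₀.comap (algebraMap K L)`, `F = modularFunctionFieldFullC K N`, `σ = tauK K τ`.

* (E1) `h29_root_mem`, `h29_exists_root`, `h29_exists_root_field` : a number field `K₁` such
  that `O` contains a primitive `m`-th root of unity for every `K ≥ K₁`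
  (`(ζ₀) (hζ₀)` of `h18_ss_step` with `m := p ^ n`);
* (E2) `h29_mu` : `(μ₀) (hμ)` of `h18_ss_step` for a prime `p ≠ q`;
* (E4) `h29_eps` : `(ε ε') (hεε') (hε)` of `h18_ss_step` for an inertia element `τ`, in the
  `algebraMap O F π₀` spelling; `h29_tau_const` : inertia maps the image of `O` in `F` into
  itself.
-/

set_option autoImplicit false
set_option linter.unusedSectionVars false
set_option linter.style.haveILetI false
set_option synthInstance.maxHeartbeats 400000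
set_option maxHeartbeats 1000000

noncomputable section

namespace Fermat.Agent.S34x.Asm.H29

open AlgebraicCurve ModularCurve IntermediateField Polynomial
open Fermat.Agent.S18x.Dict.H20 Fermat.Agent.S18x.Dict.H23
open Fermat.Agent.S34x.Desc.H12

local notation "Lbar" => AlgebraicClosure ℚ

section Inertia

variable (A₀ : ValuationSubring Lbar) (K : IntermediateField ℚ Lbar) [Normal ℚ ↥K]
  (N : ℕ) [NeZero N]

/-- Inertia maps the image of `O` in `F_K` into itself (`algebraMap` spelling). -/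
theorem h29_tau_const [IsDiscreteValuationRing (A₀.comap (algebraMap ↥K Lbar))]
    {τ : Lbar ≃ₐ[ℚ] Lbar} (hτ : τ ∈ A₀.inertiaSubgroupIn ℚ)
    (c : A₀.comap (algebraMap ↥K Lbar)) :
    ∃ c' : A₀.comap (algebraMap ↥K Lbar),
      tauF N (tauK K τ)
          (algebraMap (A₀.comap (algebraMap ↥K Lbar)) ↥(modularFunctionFieldFullC ↥K N) c)
        = algebraMap (A₀.comap (algebraMap ↥K Lbar)) ↥(modularFunctionFieldFullC ↥K N) c' :=
  h12_tauF_const A₀ K N hτ c

/-- **(E4)** `(ε ε') (hεε') (hε)` of `h18_ss_step`: an inertia element multiplies the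
uniformiser by a unit of `O`. -/
theorem h29_eps [IsDiscreteValuationRing (A₀.comap (algebraMap ↥K Lbar))]
    {τ : Lbar ≃ₐ[ℚ] Lbar} (hτ : τ ∈ A₀.inertiaSubgroupIn ℚ)
    (π₀ : A₀.comap (algebraMap ↥K Lbar)) (hπ₀ : Irreducible π₀) :
    ∃ ε ε' : A₀.comap (algebraMap ↥K Lbar), ε * ε' = 1 ∧
      tauF N (tauK K τ)
          (algebraMap (A₀.comap (algebraMap ↥K Lbar)) ↥(modularFunctionFieldFullC ↥K N) π₀)
        = algebraMap (A₀.comap (algebraMap ↥K Lbar)) ↥(modularFunctionFieldFullC ↥K N) ε *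
          algebraMap (A₀.comap (algebraMap ↥K Lbar)) ↥(modularFunctionFieldFullC ↥K N) π₀ := by
  obtain ⟨ε, ε', hεε', hε⟩ := h12_tauK_unif A₀ K hτ π₀ hπ₀
  refine ⟨ε, ε', hεε', ?_⟩
  have h1 : tauF N (tauK K τ)
      (algebraMap ↥K ↥(modularFunctionFieldFullC ↥K N) (π₀ : ↥K))
      = algebraMap ↥K ↥(modularFunctionFieldFullC ↥K N) (tauK K τ (π₀ : ↥K)) :=
    tauF_algebraMap N (tauK K τ) (π₀ : ↥K)
  rw [hε, map_mul] at h1
  exact h1

end Inertia

section Units

variable (A₀ : ValuationSubring Lbar) {q : ℕ} (hq : q.Prime) (hA₀ : A₀.LiesOverPrime q)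
  (K : IntermediateField ℚ Lbar)

include hq hA₀ in
/-- **(E2)** `(μ₀) (hμ)` of `h18_ss_step`: a prime `p ≠ q` is invertible in `O`. -/
theorem h29_mu (p : ℕ) (hp : p.Prime) (hpq : p ≠ q) :
    ∃ μ₀ : A₀.comap (algebraMap ↥K Lbar),
      μ₀ * ((p : ℕ) : A₀.comap (algebraMap ↥K Lbar)) = 1 := by
  have hnd : ¬ q ∣ p := by
    intro h
    exact hpq ((Nat.prime_dvd_prime_iff_eq hq hp).mp h).symm
  obtain ⟨u, hu⟩ := h23_isUnit_natCast (K := ↥K) A₀ hq hA₀ p hnd
  refine ⟨((u⁻¹ : (A₀.comap (algebraMap ↥K Lbar))ˣ) : A₀.comap (algebraMap ↥K Lbar)), ?_⟩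
  rw [← hu]
  exact Units.inv_mul u

/-- A root of unity of `ℚ̄` lies in every valuation subring. -/
theorem h29_root_mem (ζ : Lbar) (m : ℕ) (hm : 0 < m) (hζ : ζ ^ m = 1) : ζ ∈ A₀ := by
  rcases A₀.mem_or_inv_mem ζ with h | h
  · exact h
  · have h3 : ζ ^ (m - 1) * ζ = 1 := by
      rw [← pow_succ, Nat.sub_add_cancel hm]
      exact hζ
    have h4 : ζ⁻¹ ^ (m - 1) = ζ := by
      rw [inv_pow]
      exact inv_eq_of_mul_eq_one_right h3
    rw [← h4]
    exact pow_mem h _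

/-- **(E1)**, element form: a primitive `m`-th root of unity of `ℚ̄` lying in `K` is a
primitive `m`-th root of unity of `O = A₀ ∩ K`. -/
theorem h29_exists_root (m : ℕ) (hm : 0 < m) (ζ : Lbar) (hζ : IsPrimitiveRoot ζ m)
    (hζK : ζ ∈ K) :
    ∃ ζ₀ : A₀.comap (algebraMap ↥K Lbar), IsPrimitiveRoot ζ₀ m := by
  have hζA : ζ ∈ A₀ := h29_root_mem A₀ ζ m hm hζ.pow_eq_one
  let φ : A₀.comap (algebraMap ↥K Lbar) →+* Lbar :=
    (algebraMap ↥K Lbar).comp (A₀.comap (algebraMap ↥K Lbar)).subtype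
  have hφ : Function.Injective φ := by
    intro a b hab
    exact Subtype.ext (Subtype.ext hab)
  have h1 : IsPrimitiveRoot (φ (⟨⟨ζ, hζK⟩, hζA⟩ : A₀.comap (algebraMap ↥K Lbar))) m := hζ
  exact ⟨_, IsPrimitiveRoot.of_map_of_injective h1 hφ⟩

/-- **(E1)** `(ζ₀) (hζ₀)` of `h18_ss_step`: there is a number field `K₁` such that for every
valuation subring `A₀` of `ℚ̄` and every `K ≥ K₁` the ring `O = A₀ ∩ K` contains a primitive
`m`-th root of unity. -/
theorem h29_exists_root_field (m : ℕ) (hm : 0 < m) :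
    ∃ K₁ : IntermediateField ℚ Lbar, FiniteDimensional ℚ ↥K₁ ∧
      ∀ (A₀ : ValuationSubring Lbar) (K : IntermediateField ℚ Lbar), K₁ ≤ K →
        ∃ ζ₀ : A₀.comap (algebraMap ↥K Lbar), IsPrimitiveRoot ζ₀ m := by
  haveI : NeZero (m : Lbar) := ⟨by exact_mod_cast hm.ne'⟩
  obtain ⟨ζ, hζ⟩ := HasEnoughRootsOfUnity.exists_primitiveRoot Lbar m
  have hint : IsIntegral ℚ ζ := (hζ.isIntegral hm).tower_top
  refine ⟨ℚ⟮ζ⟯, IntermediateField.adjoin.finiteDimensional hint, ?_⟩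
  intro A₀ K hK
  exact h29_exists_root A₀ K m hm ζ hζ (hK (IntermediateField.mem_adjoin_simple_self ℚ ζ))

/-- **(E1)** at `m = p ^ n`. -/
theorem h29_exists_root_field_pow (p n : ℕ) (hp : p.Prime) :
    ∃ K₁ : IntermediateField ℚ Lbar, FiniteDimensional ℚ ↥K₁ ∧
      ∀ (A₀ : ValuationSubring Lbar) (K : IntermediateField ℚ Lbar), K₁ ≤ K →
        ∃ ζ₀ : A₀.comap (algebraMap ↥K Lbar), IsPrimitiveRoot ζ₀ (p ^ n) :=
  h29_exists_root_field (p ^ n) (pow_pos hp.pos n)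

end Units

end Fermat.Agent.S34x.Asm.H29
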